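/-
helper53 (P-MW block E, E4 DICTIONARY, abstract part).

`R` a Dedekind domain inside a function field `F / K` (all places of degree one), `P∞` a place
of `F` such that `R` is the ring of functions "regular outside `P∞`" (hypotheses `regular`,
`holo`).  Every nonzero ideal `I` of `R` has a divisor `idealDiv I = ∑_{P ≠ P∞} ord_P(I) · P`
and a class `idealClass I = [idealDiv I - deg · P∞] ∈ Pic⁰`.  This is multiplicative, kills
principal ideals, and `I` is determined by `idealDiv I`.
-/
import Mathlib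
import Fermat.Prelude.Def_AlgebraicCurve_BaseChangeGalois
import Fermat.Agent.H23.PlaceBasic

set_option autoImplicit false
set_option linter.style.haveILetI false
set_option linter.unusedSectionVars false

noncomputable section

open AlgebraicCurve
open scoped nonZeroDivisors

namespace Fermat.Agent.H53

/-- Standing hypotheses of the dictionary: `R` is the ring of functions of `F` regular outside
`Pinf` (inside its own fraction field). -/
structure DictHyp (K : Type*) {F : Type*} [Field K] [Field F] [Algebra K F]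
    (R : Type*) [CommRing R] [Algebra R F] (Pinf : Place K F) : Prop where
  inj : Function.Injective (algebraMap R F)
  principal : HasPrincipalDivisors K F
  deg_one : ∀ v : Place K F, v.deg = 1
  regular : ∀ P : Place K F, P ≠ Pinf → ∀ f : R, 0 ≤ P.ord (algebraMap R F f)
  holo : ∀ a b : R, a ≠ 0 → b ≠ 0 →
    (∀ P : Place K F, P ≠ Pinf → P.ord (algebraMap R F b) ≤ P.ord (algebraMap R F a)) → b ∣ a

section Ord

variable {K F : Type*} [Field K] [Field F] [Algebra K F]
variable {R : Type*} [CommRing R] [Algebra R F] {Pinf : Place K F}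

/-- The set of orders at `P` of the nonzero elements of `I`. -/
def idealOrdSet (P : Place K F) (I : Ideal R) : Set ℕ :=
  {n | ∃ f ∈ I, f ≠ 0 ∧ P.ord (algebraMap R F f) = (n : ℤ)}

/-- The order of an ideal at a place (`0` at `Pinf`). -/
def idealOrd (Pinf : Place K F) (P : Place K F) (I : Ideal R) : ℤ :=
  open Classical in if P = Pinf then 0 else ((sInf (idealOrdSet P I) : ℕ) : ℤ)

theorem idealOrd_inf (I : Ideal R) : idealOrd Pinf Pinf I = 0 := by
  simp [idealOrd]

theorem idealOrd_nonneg (P : Place K F) (I : Ideal R) : 0 ≤ idealOrd Pinf P I := by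
  unfold idealOrd
  split_ifs
  · exact le_rfl
  · exact Int.natCast_nonneg _

variable (h : DictHyp K R Pinf)
include h

theorem DictHyp.map_ne_zero {f : R} (hf : f ≠ 0) : algebraMap R F f ≠ 0 := fun h0 =>
  hf (h.inj (by rw [h0, map_zero]))

theorem DictHyp.idealOrdSet_nonempty {P : Place K F} (hP : P ≠ Pinf) {I : Ideal R}
    (hI : I ≠ ⊥) : (idealOrdSet P I).Nonempty := by
  obtain ⟨f, hfI, hf0⟩ := Submodule.exists_mem_ne_zero_of_ne_bot hI
  exact ⟨(P.ord (algebraMap R F f)).toNat, f, hfI, hf0,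
    (Int.toNat_of_nonneg (h.regular P hP f)).symm⟩

/-- The order of `I` at `P` is attained. -/
theorem DictHyp.exists_ord_eq {P : Place K F} (hP : P ≠ Pinf) {I : Ideal R} (hI : I ≠ ⊥) :
    ∃ f ∈ I, f ≠ 0 ∧ P.ord (algebraMap R F f) = idealOrd Pinf P I := by
  obtain ⟨f, hfI, hf0, hf⟩ := Nat.sInf_mem (h.idealOrdSet_nonempty hP hI)
  refine ⟨f, hfI, hf0, ?_⟩
  rw [hf, idealOrd, if_neg hP]

/-- The order of `I` at `P` is a lower bound. -/
theorem DictHyp.idealOrd_le {P : Place K F} (hP : P ≠ Pinf) {I : Ideal R} {f : R}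
    (hfI : f ∈ I) (hf0 : f ≠ 0) : idealOrd Pinf P I ≤ P.ord (algebraMap R F f) := by
  rw [idealOrd, if_neg hP]
  have h1 : (P.ord (algebraMap R F f)).toNat ∈ idealOrdSet P I :=
    ⟨f, hfI, hf0, (Int.toNat_of_nonneg (h.regular P hP f)).symm⟩
  have h2 := Nat.sInf_le h1
  have h3 := Int.toNat_of_nonneg (h.regular P hP f)
  omega

/-- Characterisation of the order of an ideal. -/
theorem DictHyp.idealOrd_eq {P : Place K F} (hP : P ≠ Pinf) {I : Ideal R} {n : ℤ}
    (hle : ∀ f ∈ I, f ≠ 0 → n ≤ P.ord (algebraMap R F f))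
    (hex : ∃ f ∈ I, f ≠ 0 ∧ P.ord (algebraMap R F f) = n) : idealOrd Pinf P I = n := by
  obtain ⟨f, hfI, hf0, hf⟩ := hex
  have hI : I ≠ ⊥ := fun hb => hf0 (by rw [hb] at hfI; exact hfI)
  obtain ⟨g, hgI, hg0, hg⟩ := h.exists_ord_eq hP hI
  refine le_antisymm ?_ ?_
  · rw [← hf]; exact h.idealOrd_le hP hfI hf0
  · rw [← hg]; exact hle g hgI hg0

theorem DictHyp.ord_mul {P : Place K F} {a b : R} (ha : a ≠ 0) (hb : b ≠ 0) :
    P.ord (algebraMap R F (a * b)) = P.ord (algebraMap R F a) + P.ord (algebraMap R F b) := by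
  rw [map_mul, P.ord_mul (h.map_ne_zero ha) (h.map_ne_zero hb)]

/-- Multiplicativity of the order of ideals. -/
theorem DictHyp.idealOrd_mul [IsDomain R] (P : Place K F) {I J : Ideal R} (hI : I ≠ ⊥)
    (hJ : J ≠ ⊥) : idealOrd Pinf P (I * J) = idealOrd Pinf P I + idealOrd Pinf P J := by
  by_cases hP : P = Pinf
  · subst hP; simp [idealOrd_inf]
  refine h.idealOrd_eq hP ?_ ?_
  · have key : ∀ x ∈ I * J, x = 0 ∨
        idealOrd Pinf P I + idealOrd Pinf P J ≤ P.ord (algebraMap R F x) := by
      intro x hx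
      induction hx using Submodule.mul_induction_on' with
      | mem_mul_mem a ha b hb =>
        by_cases ha0 : a = 0
        · left; rw [ha0, zero_mul]
        by_cases hb0 : b = 0
        · left; rw [hb0, mul_zero]
        right
        rw [h.ord_mul ha0 hb0]
        exact add_le_add (h.idealOrd_le hP ha ha0) (h.idealOrd_le hP hb hb0)
      | add x _ y _ hx hy =>
        by_cases hxy : x + y = 0
        · left; exact hxy
        right
        have hxy' : algebraMap R F x + algebraMap R F y ≠ 0 := by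
          rw [← map_add]; exact h.map_ne_zero hxy
        rw [map_add]
        refine Fermat.Agent.H23.ord_add_ge P hxy' _ ?_ ?_
        · rcases hx with hx | hx
          · left; rw [hx, map_zero]
          · right; exact hx
        · rcases hy with hy | hy
          · left; rw [hy, map_zero]
          · right; exact hy
    intro f hf hf0
    exact (key f hf).resolve_left hf0
  · obtain ⟨a, haI, ha0, ha⟩ := h.exists_ord_eq hP hI
    obtain ⟨b, hbJ, hb0, hb⟩ := h.exists_ord_eq hP hJ
    exact ⟨a * b, Ideal.mul_mem_mul haI hbJ, mul_ne_zero ha0 hb0, by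
      rw [h.ord_mul ha0 hb0, ha, hb]⟩

/-- The order of a principal ideal. -/
theorem DictHyp.idealOrd_span [IsDomain R] {P : Place K F} (hP : P ≠ Pinf) {x : R}
    (hx : x ≠ 0) : idealOrd Pinf P (Ideal.span {x}) = P.ord (algebraMap R F x) := by
  refine h.idealOrd_eq hP ?_ ⟨x, Ideal.mem_span_singleton_self x, hx, rfl⟩
  intro f hf hf0
  obtain ⟨r, rfl⟩ := Ideal.mem_span_singleton'.mp hf
  have hr0 : r ≠ 0 := fun h0 => hf0 (by rw [h0, zero_mul])
  rw [h.ord_mul hr0 hx]
  have := h.regular P hP r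
  omega

end Ord

section Div

variable {K F : Type*} [Field K] [Field F] [Algebra K F]
variable {R : Type*} [CommRing R] [Algebra R F] {Pinf : Place K F}

theorem DictHyp.finite_support_ord (h : DictHyp K R Pinf) {f : F} (hf : f ≠ 0) :
    {P : Place K F | P.ord f ≠ 0}.Finite := by
  haveI := h.principal
  obtain ⟨D, hD, -⟩ := HasPrincipalDivisors.exists_divisor (K := K) f hf
  refine D.support.finite_toSet.subset ?_
  intro P hP
  rw [Finset.mem_coe, Finsupp.mem_support_iff, hD P]
  exact hP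

theorem DictHyp.finite_support_idealOrd (h : DictHyp K R Pinf) {I : Ideal R} (hI : I ≠ ⊥) :
    (Function.support fun P : Place K F => idealOrd Pinf P I).Finite := by
  obtain ⟨f, hfI, hf0⟩ := Submodule.exists_mem_ne_zero_of_ne_bot hI
  refine (h.finite_support_ord (h.map_ne_zero hf0)).subset ?_
  intro P hP
  rw [Function.mem_support] at hP
  by_cases hPinf : P = Pinf
  · subst hPinf; exact absurd (idealOrd_inf I) hP
  have h1 := h.idealOrd_le hPinf hfI hf0
  have h2 := idealOrd_nonneg (Pinf := Pinf) P I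
  show P.ord (algebraMap R F f) ≠ 0
  omega

/-- The divisor of an ideal (`0` for the zero ideal). -/
def idealDiv (h : DictHyp K R Pinf) (I : Ideal R) : Divisor K F :=
  open Classical in
  if hI : I ≠ ⊥ then
    Finsupp.ofSupportFinite (fun P => idealOrd Pinf P I) (h.finite_support_idealOrd hI)
  else 0

theorem idealDiv_apply (h : DictHyp K R Pinf) {I : Ideal R} (hI : I ≠ ⊥) (P : Place K F) :
    idealDiv h I P = idealOrd Pinf P I := by
  rw [idealDiv, dif_pos hI]
  rfl

theorem idealDiv_inf (h : DictHyp K R Pinf) (I : Ideal R) : idealDiv h I Pinf = 0 := by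
  by_cases hI : I ≠ ⊥
  · rw [idealDiv_apply h hI, idealOrd_inf]
  · rw [idealDiv, dif_neg hI]; rfl

theorem idealDiv_nonneg (h : DictHyp K R Pinf) (I : Ideal R) : 0 ≤ idealDiv h I := by
  intro P
  by_cases hI : I ≠ ⊥
  · rw [idealDiv_apply h hI]; exact idealOrd_nonneg P I
  · rw [idealDiv, dif_neg hI]

theorem idealDiv_mul [IsDomain R] (h : DictHyp K R Pinf) {I J : Ideal R} (hI : I ≠ ⊥)
    (hJ : J ≠ ⊥) : idealDiv h (I * J) = idealDiv h I + idealDiv h J := by
  ext P
  rw [Finsupp.add_apply, idealDiv_apply h (mul_ne_zero hI hJ), idealDiv_apply h hI,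
    idealDiv_apply h hJ, h.idealOrd_mul P hI hJ]

/-- The divisor of a nonzero principal ideal is the finite part of the divisor of a
generator. -/
theorem idealDiv_span [IsDomain R] (h : DictHyp K R Pinf) {x : R} (hx : x ≠ 0)
    {D : Divisor K F} (hD : ∀ v : Place K F, D v = v.ord (algebraMap R F x)) :
    idealDiv h (Ideal.span {x}) = D - Finsupp.single Pinf (D Pinf) := by
  have hI : Ideal.span {x} ≠ (⊥ : Ideal R) := by
    rw [Ne, Ideal.span_singleton_eq_bot]; exact hx
  ext P
  rw [idealDiv_apply h hI, Finsupp.sub_apply]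
  by_cases hP : P = Pinf
  · subst hP
    rw [idealOrd_inf, Finsupp.single_eq_same, sub_self]
  · rw [h.idealOrd_span hP hx, Finsupp.single_eq_of_ne hP, sub_zero, hD P]

/-- The degree-zero divisor `idealDiv I - deg · P∞`. -/
def idealClassDiv (h : DictHyp K R Pinf) (I : Ideal R) : Divisor.degZero (K := K) (F := F) :=
  ⟨idealDiv h I - Finsupp.single Pinf (Divisor.degree (idealDiv h I)), by
    rw [Divisor.mem_degZero, map_sub, Divisor.degree_single, h.deg_one Pinf, Nat.cast_one,
      mul_one, sub_self]⟩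

theorem coe_idealClassDiv (h : DictHyp K R Pinf) (I : Ideal R) :
    (idealClassDiv h I : Divisor K F)
      = idealDiv h I - Finsupp.single Pinf (Divisor.degree (idealDiv h I)) := rfl

/-- The class of an ideal in `Pic⁰`. -/
def idealClass (h : DictHyp K R Pinf) (I : Ideal R) : Pic0 K F := Pic0.mk (idealClassDiv h I)

theorem idealClass_mul [IsDomain R] (h : DictHyp K R Pinf) {I J : Ideal R} (hI : I ≠ ⊥)
    (hJ : J ≠ ⊥) : idealClass h (I * J) = idealClass h I + idealClass h J := by
  rw [idealClass, idealClass, idealClass, ← Pic0.mk_add]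
  congr 1
  apply Subtype.ext
  rw [AddSubgroup.coe_add, coe_idealClassDiv, coe_idealClassDiv, coe_idealClassDiv,
    idealDiv_mul h hI hJ, map_add, Finsupp.single_add]
  abel

theorem idealClass_span [IsDomain R] (h : DictHyp K R Pinf) {x : R} (hx : x ≠ 0) :
    idealClass h (Ideal.span {x}) = 0 := by
  haveI := h.principal
  obtain ⟨D, hD, hdeg⟩ := HasPrincipalDivisors.exists_divisor (K := K) _ (h.map_ne_zero hx)
  rw [idealClass, Pic0.mk, QuotientAddGroup.eq_zero_iff, AddSubgroup.mem_addSubgroupOf,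
    Divisor.mem_principal]
  refine ⟨algebraMap R F x, h.map_ne_zero hx, fun v => ?_⟩
  rw [coe_idealClassDiv, idealDiv_span h hx hD, map_sub, hdeg, Divisor.degree_single,
    h.deg_one Pinf, Nat.cast_one, mul_one, zero_sub, Finsupp.single_neg, sub_neg_eq_add,
    sub_add_cancel, hD v]

theorem idealClass_top [IsDomain R] (h : DictHyp K R Pinf) : idealClass h (⊤ : Ideal R) = 0 := by
  rw [← Ideal.span_singleton_one]
  exact idealClass_span h one_ne_zero

end Div

section Determination

variable {K F : Type*} [Field K] [Field F] [Algebra K F]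
variable {R : Type*} [CommRing R] [IsDedekindDomain R] [Algebra R F] {Pinf : Place K F}

/-- Every nonzero ideal of a Dedekind domain has a nonzero complement with principal
product. -/
theorem exists_mul_eq_span_of_ne_bot {J : Ideal R} (hJ : J ≠ ⊥) :
    ∃ (J' : Ideal R) (b : R), J' ≠ ⊥ ∧ b ≠ 0 ∧ J * J' = Ideal.span {b} := by
  have hJ0 : J ∈ (Ideal R)⁰ := mem_nonZeroDivisors_iff_ne_zero.mpr hJ
  obtain ⟨J', hJ'⟩ := ClassGroup.mk0_surjective (ClassGroup.mk0 ⟨J, hJ0⟩)⁻¹
  have hJ'0 : (J' : Ideal R) ≠ ⊥ := mem_nonZeroDivisors_iff_ne_zero.mp J'.2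
  have hprod : J * (J' : Ideal R) ∈ (Ideal R)⁰ :=
    mem_nonZeroDivisors_iff_ne_zero.mpr (mul_ne_zero hJ hJ'0)
  have h0 : (⟨J * (J' : Ideal R), hprod⟩ : (Ideal R)⁰) = ⟨J, hJ0⟩ * J' := Subtype.ext rfl
  have h1 : ClassGroup.mk0 (⟨J * (J' : Ideal R), hprod⟩ : (Ideal R)⁰) = 1 := by
    rw [h0, map_mul, hJ', mul_inv_cancel]
  have h2 : Submodule.IsPrincipal (J * (J' : Ideal R)) :=
    (ClassGroup.mk0_eq_one_iff hprod).mp h1
  obtain ⟨b, hb⟩ := h2
  refine ⟨J', b, hJ'0, ?_, hb⟩
  intro hb0
  apply mul_ne_zero hJ hJ'0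
  rw [hb, hb0]
  exact Ideal.span_singleton_eq_bot.mpr rfl

/-- An ideal is determined by its orders: monotone form. -/
theorem DictHyp.le_of_idealOrd_le (h : DictHyp K R Pinf) {I J : Ideal R} (_hI : I ≠ ⊥)
    (hJ : J ≠ ⊥)
    (hle : ∀ P : Place K F, P ≠ Pinf → idealOrd Pinf P J ≤ idealOrd Pinf P I) : I ≤ J := by
  obtain ⟨J', b, hJ', hb, hJJ'⟩ := exists_mul_eq_span_of_ne_bot hJ
  have h1 : I * J' ≤ J * J' := by
    rw [hJJ', Ideal.mul_le]
    intro f hf g hg
    rw [Ideal.mem_span_singleton]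
    by_cases hf0 : f = 0
    · rw [hf0, zero_mul]; exact dvd_zero b
    by_cases hg0 : g = 0
    · rw [hg0, mul_zero]; exact dvd_zero b
    refine h.holo _ _ (mul_ne_zero hf0 hg0) hb fun P hP => ?_
    have e1 : idealOrd Pinf P (Ideal.span {b}) = P.ord (algebraMap R F b) :=
      h.idealOrd_span hP hb
    rw [← hJJ', h.idealOrd_mul P hJ hJ'] at e1
    rw [h.ord_mul hf0 hg0, ← e1]
    have e2 := h.idealOrd_le hP hf hf0
    have e3 := h.idealOrd_le hP hg hg0
    have e4 := hle P hP
    omega
  have h2 : J * J' ∣ I * J' := Ideal.dvd_iff_le.mpr h1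
  exact Ideal.dvd_iff_le.mp ((mul_dvd_mul_iff_right hJ').mp h2)

/-- An ideal is determined by its orders. -/
theorem DictHyp.eq_of_idealOrd_eq (h : DictHyp K R Pinf) {I J : Ideal R} (hI : I ≠ ⊥)
    (hJ : J ≠ ⊥)
    (heq : ∀ P : Place K F, P ≠ Pinf → idealOrd Pinf P I = idealOrd Pinf P J) : I = J :=
  le_antisymm (h.le_of_idealOrd_le hI hJ fun P hP => (heq P hP).ge)
    (h.le_of_idealOrd_le hJ hI fun P hP => (heq P hP).le)

/-- The class of an ideal only depends on its ideal class. -/
theorem idealClass_eq_of_mk0_eq (h : DictHyp K R Pinf) {I J : (Ideal R)⁰}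
    (hIJ : ClassGroup.mk0 I = ClassGroup.mk0 J) :
    idealClass h (I : Ideal R) = idealClass h (J : Ideal R) := by
  obtain ⟨x, y, hx, hy, hxy⟩ := ClassGroup.mk0_eq_mk0_iff.mp hIJ
  have hI : (I : Ideal R) ≠ ⊥ := mem_nonZeroDivisors_iff_ne_zero.mp I.2
  have hJ : (J : Ideal R) ≠ ⊥ := mem_nonZeroDivisors_iff_ne_zero.mp J.2
  have hxs : Ideal.span {x} ≠ (⊥ : Ideal R) := by
    rw [Ne, Ideal.span_singleton_eq_bot]; exact hx
  have hys : Ideal.span {y} ≠ (⊥ : Ideal R) := by
    rw [Ne, Ideal.span_singleton_eq_bot]; exact hy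
  have h1 := congrArg (idealClass h) hxy
  rw [idealClass_mul h hxs hI, idealClass_mul h hys hJ, idealClass_span h hx,
    idealClass_span h hy, zero_add, zero_add] at h1
  exact h1

/-- The class map on the ideal class group, as a function. -/
def classFun (h : DictHyp K R Pinf) (c : ClassGroup R) : Pic0 K F :=
  idealClass h ((Classical.choose (ClassGroup.mk0_surjective c) : (Ideal R)⁰) : Ideal R)

theorem classFun_mk0 (h : DictHyp K R Pinf) (I : (Ideal R)⁰) :
    classFun h (ClassGroup.mk0 I) = idealClass h (I : Ideal R) :=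
  idealClass_eq_of_mk0_eq h (Classical.choose_spec (ClassGroup.mk0_surjective (ClassGroup.mk0 I)))

/-- The class map `Cl(R) → Pic⁰(F)`. -/
def classHom (h : DictHyp K R Pinf) : Additive (ClassGroup R) →+ Pic0 K F where
  toFun c := classFun h (Additive.toMul c)
  map_zero' := by
    show classFun h 1 = 0
    have h1 : (1 : ClassGroup R) = ClassGroup.mk0 1 := (map_one _).symm
    rw [h1, classFun_mk0]
    show idealClass h (1 : Ideal R) = 0
    rw [Ideal.one_eq_top]
    exact idealClass_top h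
  map_add' c d := by
    obtain ⟨I, hI⟩ := ClassGroup.mk0_surjective (Additive.toMul c)
    obtain ⟨J, hJ⟩ := ClassGroup.mk0_surjective (Additive.toMul d)
    show classFun h (Additive.toMul c * Additive.toMul d)
      = classFun h (Additive.toMul c) + classFun h (Additive.toMul d)
    rw [← hI, ← hJ, ← map_mul, classFun_mk0, classFun_mk0, classFun_mk0]
    exact idealClass_mul h (mem_nonZeroDivisors_iff_ne_zero.mp I.2)
      (mem_nonZeroDivisors_iff_ne_zero.mp J.2)

theorem classHom_mk0 (h : DictHyp K R Pinf) (I : (Ideal R)⁰) :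
    classHom h (Additive.ofMul (ClassGroup.mk0 I)) = idealClass h (I : Ideal R) :=
  classFun_mk0 h I

end Determination

/-- Galois hypotheses of the dictionary: the group `G` acts on `F` semilinearly, fixes `R`
pointwise and `Pinf`; invariant principal divisors have generators in `Frac R` (`descent`),
invariant classes have invariant effective representatives (`rep`), and invariant effective
divisors are cut out by elements of `R` (`gen`). -/
structure DictGalHyp {K F : Type*} [Field K] [Field F] [Algebra K F] {G : Type*} [Group G]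
    (ρ : G →* SemilinearAut K F) (R : Type*) [CommRing R] [Algebra R F] (Pinf : Place K F) :
    Prop extends DictHyp K R Pinf where
  fixed : ∀ (g : G) (f : R), ρ g • algebraMap R F f = algebraMap R F f
  fixed_inf : ∀ g : G, ρ g • Pinf = Pinf
  descent : ∀ D : Divisor K F, D.IsPrincipal → (∀ g : G, ρ g • D = D) →
    ∃ a b : R, a ≠ 0 ∧ b ≠ 0 ∧
      ∀ v : Place K F, D v + v.ord (algebraMap R F b) = v.ord (algebraMap R F a)
  rep : ∀ x : Pic0 K F, (∀ g : G, ρ g • x = x) →
    ∃ (E : Divisor K F) (D : Divisor.degZero (K := K) (F := F)), 0 ≤ E ∧ E Pinf = 0 ∧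
      (∀ g : G, ρ g • E = E) ∧ Pic0.mk D = x ∧
      (D : Divisor K F) = E - Finsupp.single Pinf (Divisor.degree E)
  gen : ∀ E : Divisor K F, 0 ≤ E → E Pinf = 0 → (∀ g : G, ρ g • E = E) →
    ∀ P : Place K F, P ≠ Pinf →
      ∃ f : R, f ≠ 0 ∧ (∀ Q : Place K F, Q ≠ Pinf → E Q ≤ Q.ord (algebraMap R F f)) ∧
        P.ord (algebraMap R F f) = E P

section Galois

variable {K F : Type*} [Field K] [Field F] [Algebra K F]
variable {R : Type*} [CommRing R] [IsDedekindDomain R] [Algebra R F] {Pinf : Place K F}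
variable {G : Type*} [Group G] {ρ : G →* SemilinearAut K F}

theorem DictGalHyp.smul_eq_inf_iff (h : DictGalHyp ρ R Pinf) (g : G) (P : Place K F) :
    ρ g • P = Pinf ↔ P = Pinf := by
  constructor
  · intro hP
    have h1 : ρ g • P = ρ g • Pinf := by rw [hP, h.fixed_inf g]
    exact MulAction.injective (ρ g) h1
  · rintro rfl
    exact h.fixed_inf g

theorem DictGalHyp.ord_smul_place (h : DictGalHyp ρ R Pinf) (g : G) (P : Place K F) (f : R) :
    (ρ g • P).ord (algebraMap R F f) = P.ord (algebraMap R F f) := by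
  have h1 := SemilinearAut.ord_smul (ρ g) P (algebraMap R F f)
  rwa [h.fixed g f] at h1

theorem DictGalHyp.idealOrd_smul (h : DictGalHyp ρ R Pinf) (g : G) (P : Place K F)
    (I : Ideal R) : idealOrd Pinf (ρ g • P) I = idealOrd Pinf P I := by
  classical
  unfold idealOrd
  by_cases hP : P = Pinf
  · rw [if_pos hP, if_pos ((h.smul_eq_inf_iff g P).mpr hP)]
  · rw [if_neg hP, if_neg (fun hc => hP ((h.smul_eq_inf_iff g P).mp hc))]
    have hset : idealOrdSet (ρ g • P) I = idealOrdSet P I := by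
      ext n
      simp only [idealOrdSet, Set.mem_ofPred_eq, h.ord_smul_place g P]
    rw [hset]

theorem DictGalHyp.smul_idealDiv (h : DictGalHyp ρ R Pinf) (g : G) (I : Ideal R) :
    ρ g • idealDiv h.toDictHyp I = idealDiv h.toDictHyp I := by
  by_cases hI : I ≠ ⊥
  · ext P
    rw [SemilinearAut.divisor_smul_apply, idealDiv_apply _ hI, idealDiv_apply _ hI,
      ← map_inv, h.idealOrd_smul]
  · rw [idealDiv, dif_neg hI, smul_zero]

theorem DictGalHyp.smul_idealClass (h : DictGalHyp ρ R Pinf) (g : G) (I : Ideal R) :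
    ρ g • idealClass h.toDictHyp I = idealClass h.toDictHyp I := by
  rw [idealClass, SemilinearAut.pic0_smul_mk]
  congr 1
  apply Subtype.ext
  rw [SemilinearAut.coe_degZeroSMulHom, coe_idealClassDiv, smul_sub, h.smul_idealDiv,
    SemilinearAut.smul_single, h.fixed_inf]

theorem DictGalHyp.smul_classHom (h : DictGalHyp ρ R Pinf) (g : G)
    (c : Additive (ClassGroup R)) :
    ρ g • classHom h.toDictHyp c = classHom h.toDictHyp c := by
  obtain ⟨I, hI⟩ := ClassGroup.mk0_surjective (Additive.toMul c)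
  have hc : c = Additive.ofMul (ClassGroup.mk0 I) := by rw [hI]; rfl
  rw [hc, classHom_mk0]
  exact h.smul_idealClass g I

/-- Injectivity of the class map. -/
theorem DictGalHyp.classHom_injective (h : DictGalHyp ρ R Pinf) :
    Function.Injective (classHom (R := R) h.toDictHyp) := by
  rw [injective_iff_map_eq_zero]
  intro c hc
  obtain ⟨I, hI⟩ := ClassGroup.mk0_surjective (Additive.toMul c)
  have hcI : c = Additive.ofMul (ClassGroup.mk0 I) := by rw [hI]; rfl
  have hI0 : (I : Ideal R) ≠ ⊥ := mem_nonZeroDivisors_iff_ne_zero.mp I.2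
  rw [hcI, classHom_mk0, idealClass, Pic0.mk, QuotientAddGroup.eq_zero_iff,
    AddSubgroup.mem_addSubgroupOf, Divisor.mem_principal] at hc
  -- the divisor is invariant
  have hinv : ∀ g : G, ρ g • (idealClassDiv h.toDictHyp (I : Ideal R) : Divisor K F)
      = (idealClassDiv h.toDictHyp (I : Ideal R) : Divisor K F) := by
    intro g
    rw [coe_idealClassDiv, smul_sub, h.smul_idealDiv, SemilinearAut.smul_single, h.fixed_inf]
  obtain ⟨a, b, ha, hb, hab⟩ := h.descent _ hc hinv
  -- `(b) I = (a)`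
  have hbs : Ideal.span {b} ≠ (⊥ : Ideal R) := by
    rw [Ne, Ideal.span_singleton_eq_bot]; exact hb
  have has : Ideal.span {a} ≠ (⊥ : Ideal R) := by
    rw [Ne, Ideal.span_singleton_eq_bot]; exact ha
  have hkey : Ideal.span {b} * (I : Ideal R) = Ideal.span {a} := by
    refine h.toDictHyp.eq_of_idealOrd_eq (mul_ne_zero hbs hI0) has fun P hP => ?_
    rw [h.toDictHyp.idealOrd_mul P hbs hI0, h.toDictHyp.idealOrd_span hP hb,
      h.toDictHyp.idealOrd_span hP ha]
    have h1 := hab P
    rw [coe_idealClassDiv, Finsupp.sub_apply, Finsupp.single_eq_of_ne hP, sub_zero,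
      idealDiv_apply _ hI0] at h1
    omega
  -- conclude
  have hb0 : Ideal.span {b} ∈ (Ideal R)⁰ := mem_nonZeroDivisors_iff_ne_zero.mpr hbs
  have ha0 : Ideal.span {a} ∈ (Ideal R)⁰ := mem_nonZeroDivisors_iff_ne_zero.mpr has
  have h1 : ClassGroup.mk0 (⟨Ideal.span {b}, hb0⟩ : (Ideal R)⁰) = 1 :=
    (ClassGroup.mk0_eq_one_iff hb0).mpr ⟨⟨b, rfl⟩⟩
  have h2 : ClassGroup.mk0 (⟨Ideal.span {a}, ha0⟩ : (Ideal R)⁰) = 1 :=
    (ClassGroup.mk0_eq_one_iff ha0).mpr ⟨⟨a, rfl⟩⟩
  have h3 : (⟨Ideal.span {b}, hb0⟩ : (Ideal R)⁰) * I = ⟨Ideal.span {a}, ha0⟩ :=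
    Subtype.ext hkey
  have h4 := congrArg ClassGroup.mk0 h3
  rw [map_mul, h1, h2, one_mul] at h4
  rw [hcI, h4]
  rfl

/-- The ideal of an effective divisor avoiding `Pinf`. -/
def divIdeal (h : DictHyp K R Pinf) (E : Divisor K F) : Ideal R where
  carrier := {f | f = 0 ∨ ∀ Q : Place K F, Q ≠ Pinf → E Q ≤ Q.ord (algebraMap R F f)}
  zero_mem' := Or.inl rfl
  add_mem' := by
    intro a b ha hb
    by_cases hab : a + b = 0
    · exact Or.inl hab
    right
    intro Q hQ
    have hab' : algebraMap R F a + algebraMap R F b ≠ 0 := by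
      rw [← map_add]; exact h.map_ne_zero hab
    rw [map_add]
    refine Fermat.Agent.H23.ord_add_ge Q hab' _ ?_ ?_
    · rcases ha with ha | ha
      · left; rw [ha, map_zero]
      · right; exact ha Q hQ
    · rcases hb with hb | hb
      · left; rw [hb, map_zero]
      · right; exact hb Q hQ
  smul_mem' := by
    intro c a ha
    by_cases hca : c * a = 0
    · exact Or.inl hca
    right
    intro Q hQ
    have hc0 : c ≠ 0 := fun h0 => hca (by rw [h0, zero_mul])
    have ha0 : a ≠ 0 := fun h0 => hca (by rw [h0, mul_zero])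
    rw [smul_eq_mul, h.ord_mul hc0 ha0]
    have h1 := h.regular Q hQ c
    have h2 := (ha.resolve_left ha0) Q hQ
    omega

theorem mem_divIdeal (h : DictHyp K R Pinf) {E : Divisor K F} {f : R} :
    f ∈ divIdeal h E ↔ f = 0 ∨ ∀ Q : Place K F, Q ≠ Pinf → E Q ≤ Q.ord (algebraMap R F f) :=
  Iff.rfl

/-- Surjectivity of the class map onto the invariant classes. -/
theorem DictGalHyp.classHom_surjective (h : DictGalHyp ρ R Pinf) (x : Pic0 K F)
    (hx : ∀ g : G, ρ g • x = x) : ∃ c : Additive (ClassGroup R), classHom h.toDictHyp c = x := by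
  obtain ⟨E, D, hE0, hEinf, hEinv, hDx, hDE⟩ := h.rep x hx
  -- the ideal of `E`
  have hne : divIdeal h.toDictHyp E ≠ ⊥ := by
    by_cases hE : E = 0
    · intro hbot
      have h1 : (1 : R) ∈ divIdeal h.toDictHyp E := by
        right
        intro Q hQ
        rw [hE, map_one, Place.ord_one]
        rfl
      rw [hbot] at h1
      exact one_ne_zero ((Submodule.mem_bot R).mp h1)
    · obtain ⟨P, hP⟩ : ∃ P, E P ≠ 0 := by
        by_contra hcon
        push Not at hcon
        exact hE (Finsupp.ext hcon)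
      have hPinf : P ≠ Pinf := fun hc => hP (hc ▸ hEinf)
      obtain ⟨f, hf0, hf, -⟩ := h.gen E hE0 hEinf hEinv P hPinf
      intro hbot
      have h1 : f ∈ divIdeal h.toDictHyp E := Or.inr hf
      rw [hbot] at h1
      exact hf0 ((Submodule.mem_bot R).mp h1)
  have hdiv : idealDiv h.toDictHyp (divIdeal h.toDictHyp E) = E := by
    ext P
    rw [idealDiv_apply _ hne]
    by_cases hP : P = Pinf
    · subst hP; rw [idealOrd_inf, hEinf]
    · refine h.toDictHyp.idealOrd_eq hP ?_ ?_
      · intro f hf hf0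
        exact (hf.resolve_left hf0) P hP
      · obtain ⟨f, hf0, hf, hfP⟩ := h.gen E hE0 hEinf hEinv P hP
        exact ⟨f, Or.inr hf, hf0, hfP⟩
  refine ⟨Additive.ofMul (ClassGroup.mk0 ⟨divIdeal h.toDictHyp E,
    mem_nonZeroDivisors_iff_ne_zero.mpr hne⟩), ?_⟩
  rw [classHom_mk0, idealClass, ← hDx]
  congr 1
  apply Subtype.ext
  rw [coe_idealClassDiv, hDE, hdiv]

/-- **The dictionary (abstract form)**: `Cl(R) ≃ Pic⁰(F)^G`. -/
theorem DictGalHyp.nonempty_equiv (h : DictGalHyp ρ R Pinf) [DistribMulAction G (Pic0 K F)]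
    (hact : ∀ (g : G) (x : Pic0 K F), g • x = ρ g • x) :
    Nonempty (Additive (ClassGroup R) ≃+ ↥(FixedPoints.addSubgroup G (Pic0 K F))) := by
  let φ : Additive (ClassGroup R) →+ ↥(FixedPoints.addSubgroup G (Pic0 K F)) :=
    (classHom h.toDictHyp).codRestrict _ (fun c => by
      rw [FixedPoints.mem_addSubgroup]
      intro g
      rw [hact]
      exact h.smul_classHom g c)
  refine ⟨AddEquiv.ofBijective φ ⟨?_, ?_⟩⟩
  · intro c d hcd
    exact h.classHom_injective (congrArg Subtype.val hcd)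
  · rintro ⟨x, hx⟩
    rw [FixedPoints.mem_addSubgroup] at hx
    obtain ⟨c, hc⟩ := h.classHom_surjective x (fun g => by rw [← hact]; exact hx g)
    exact ⟨c, Subtype.ext hc⟩

end Galois

end Fermat.Agent.H53
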