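/-
helper53 (P-MW block E, E4 DICTIONARY): integrality transfer between `F₀ / ℚ[t]` and
`ℚ̄ · F₀ / ℚ̄[t]`.

* `isIntegral_toBar` : `f` integral over `ℚ[t]` ⟹ `toBar f` integral over `ℚ̄[toBar t]`;
* `isIntegral_of_toBar` : conversely, `toBar f` integral over `ℚ̄[toBar t]` ⟹ `f` integral over
  `ℚ[t]` (the ring `ℚ̄[toBar t]` is integral over the image of `ℚ[t]`).
-/
import Fermat.Agent.H23.MWE.Interfaces

set_option autoImplicit false
set_option linter.style.haveILetI false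
set_option linter.unusedSectionVars false

noncomputable section

open ModularCurve AlgebraicCurve IntermediateField

namespace Fermat.Agent.H53

open Fermat.Agent.H92.MW (QQbar)
open Fermat.Agent.H23.MWE

variable (F₀ : IntermediateField ℚ (LaurentSeries ℚ)) (t : ↥F₀)

/-- `toBar` is injective. -/
theorem toBar_injective : Function.Injective (toBar F₀) := (toBar F₀).injective

/-- `toBar` commutes with the rational constants. -/
theorem toBar_algebraMap_rat (r : ℚ) :
    toBar F₀ (algebraMap ℚ ↥F₀ r) = algebraMap QQbar (FBar F₀) (algebraMap ℚ QQbar r) := by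
  have h : (toBar F₀).comp (algebraMap ℚ ↥F₀)
      = (algebraMap QQbar (FBar F₀)).comp (algebraMap ℚ QQbar) := Subsingleton.elim _ _
  exact congrFun (congrArg DFunLike.coe h) r

/-- `toBar` maps `ℚ[t]` into `ℚ̄[toBar t]`. -/
theorem toBar_mem_adjoin {a : ↥F₀} (ha : a ∈ Algebra.adjoin ℚ ({t} : Set ↥F₀)) :
    toBar F₀ a ∈ Algebra.adjoin QQbar ({toBar F₀ t} : Set (FBar F₀)) := by
  induction ha using Algebra.adjoin_induction with
  | mem x hx =>
    rw [Set.mem_singleton_iff] at hx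
    rw [hx]
    exact Algebra.subset_adjoin (Set.mem_singleton _)
  | algebraMap r =>
    rw [toBar_algebraMap_rat]
    exact Subalgebra.algebraMap_mem _ _
  | add x y _ _ hx hy =>
    rw [map_add]; exact Subalgebra.add_mem _ hx hy
  | mul x y _ _ hx hy =>
    rw [map_mul]; exact Subalgebra.mul_mem _ hx hy

/-- The restriction of `toBar` to `ℚ[t] → ℚ̄[toBar t]`. -/
def toBarAdjoin : ↥(Algebra.adjoin ℚ ({t} : Set ↥F₀)) →+*
    ↥(Algebra.adjoin QQbar ({toBar F₀ t} : Set (FBar F₀))) :=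
  ((toBar F₀).comp (algebraMap ↥(Algebra.adjoin ℚ ({t} : Set ↥F₀)) ↥F₀)).codRestrict
    (Algebra.adjoin QQbar ({toBar F₀ t} : Set (FBar F₀)))
    (fun a => toBar_mem_adjoin F₀ t a.2)

/-- **Integrality goes up.** -/
theorem isIntegral_toBar {f : ↥F₀} (hf : IsIntegral (Algebra.adjoin ℚ ({t} : Set ↥F₀)) f) :
    IsIntegral (Algebra.adjoin QQbar ({toBar F₀ t} : Set (FBar F₀))) (toBar F₀ f) :=
  IsIntegral.map_of_comp_eq (toBarAdjoin F₀ t) (toBar F₀) (RingHom.ext fun _ => rfl) hf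

/-- The `ℚ[t]`-algebra structure of `ℚ̄ · F₀`. -/
@[reducible] def adjoinBarAlgebra : Algebra ↥(Algebra.adjoin ℚ ({t} : Set ↥F₀)) (FBar F₀) :=
  ((toBar F₀).comp (algebraMap ↥(Algebra.adjoin ℚ ({t} : Set ↥F₀)) ↥F₀)).toAlgebra

/-- Every element of `ℚ̄[toBar t]` is integral over (the image of) `ℚ[t]`. -/
theorem isIntegral_adjoinBar_of_mem {x : FBar F₀}
    (hx : x ∈ Algebra.adjoin QQbar ({toBar F₀ t} : Set (FBar F₀))) :
    @IsIntegral ↥(Algebra.adjoin ℚ ({t} : Set ↥F₀)) (FBar F₀) _ _ (adjoinBarAlgebra F₀ t) x := by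
  letI := adjoinBarAlgebra F₀ t
  induction hx using Algebra.adjoin_induction with
  | mem x hx =>
    rw [Set.mem_singleton_iff] at hx
    rw [hx]
    exact isIntegral_algebraMap
      (x := (⟨t, Algebra.subset_adjoin (Set.mem_singleton _)⟩ :
        ↥(Algebra.adjoin ℚ ({t} : Set ↥F₀))))
  | algebraMap c =>
    have hc : IsIntegral ℚ c := (AlgebraicClosure.isAlgebraic ℚ).isIntegral.isIntegral c
    refine IsIntegral.map_of_comp_eq (algebraMap ℚ ↥(Algebra.adjoin ℚ ({t} : Set ↥F₀)))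
      (algebraMap QQbar (FBar F₀)) (Subsingleton.elim _ _) hc
  | add x y _ _ hx hy => exact hx.add hy
  | mul x y _ _ hx hy => exact hx.mul hy

/-- **Integrality goes down.** -/
theorem isIntegral_of_toBar {f : ↥F₀}
    (hf : IsIntegral (Algebra.adjoin QQbar ({toBar F₀ t} : Set (FBar F₀))) (toBar F₀ f)) :
    IsIntegral (Algebra.adjoin ℚ ({t} : Set ↥F₀)) f := by
  letI := adjoinBarAlgebra F₀ t
  -- the inclusion of `ℚ̄[toBar t]` into the integral closure of `ℚ[t]`
  let S := integralClosure ↥(Algebra.adjoin ℚ ({t} : Set ↥F₀)) (FBar F₀)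
  let ι : ↥(Algebra.adjoin QQbar ({toBar F₀ t} : Set (FBar F₀))) →+* ↥S :=
    (algebraMap ↥(Algebra.adjoin QQbar ({toBar F₀ t} : Set (FBar F₀))) (FBar F₀)).codRestrict S
      (fun b => isIntegral_adjoinBar_of_mem F₀ t b.2)
  have h1 : IsIntegral ↥S (toBar F₀ f) :=
    IsIntegral.map_of_comp_eq ι (RingHom.id (FBar F₀)) (RingHom.ext fun _ => rfl) hf
  have h2 : toBar F₀ f ∈ integralClosure ↥S (FBar F₀) := h1
  rw [integralClosure_idem] at h2
  obtain ⟨s, hs⟩ := Algebra.mem_bot.mp h2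
  have h3 : IsIntegral ↥(Algebra.adjoin ℚ ({t} : Set ↥F₀)) (toBar F₀ f) := by
    rw [← hs]
    exact s.2
  let g : ↥F₀ →ₐ[↥(Algebra.adjoin ℚ ({t} : Set ↥F₀))] FBar F₀ :=
    { toBar F₀ with commutes' := fun _ => rfl }
  exact (isIntegral_algHom_iff g (toBar_injective F₀)).mp h3

end Fermat.Agent.H53

end
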