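/-
helper53 (P-MW block E, E4 DICTIONARY): the dictionary `Cl(RatRing F₀ t) ≃ Pic⁰(ℚ̄ · F₀)^{G_ℚ}`
for a level field `F₀` with a function `t` whose only pole is the place `P` of `q`-order
(`TData F₀ t P`), from the abstract dictionary `Fermat.Agent.H53.DictGalHyp.nonempty_equiv`.

Inputs (rows MW-E-DESC1/2 of helper23's interface): `FixedStatement`, `DescentStatement`.
-/
import Fermat.Agent.H53.MWE.Dict
import Fermat.Agent.H53.MWE.DictInt
import Fermat.Agent.H53.SS2.InvRepGalois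
import Fermat.Agent.H68.PoleDict
import Fermat.Agent.H58.RR.CharZero
import Fermat.Agent.H58.RR.NonSpecial
import Fermat.Agent.H84.FundIdentity

set_option autoImplicit false
set_option linter.style.haveILetI false
set_option linter.unusedSectionVars false

noncomputable section

open ModularCurve AlgebraicCurve IntermediateField
open scoped nonZeroDivisors

namespace Fermat.Agent.H53

open Fermat.Agent.H92.MW (QQbar)
open Fermat.Agent.H23.MWE

section Generic

variable {K F : Type*} [Field K] [Field F] [Algebra K F]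

/-- **Riemann-Roch, exact order.**  For a divisor `E` and places `Q ≠ P` there is a function with
`ord_v ≥ E v` at all `v ≠ P` and `ord_Q = E Q`. -/
theorem exists_exact_order (h : Fermat.Agent.H58.RRHyp K F) (P : Place K F) (E : Divisor K F)
    (Q : Place K F) (hQ : Q ≠ P) :
    ∃ f : F, f ≠ 0 ∧ (∀ v : Place K F, v ≠ P → E v ≤ v.ord f) ∧ Q.ord f = E Q := by
  classical
  obtain ⟨c, hc⟩ := h.exists_degree_bound
  obtain ⟨m, hm⟩ : ∃ m : ℕ, c + Divisor.degree E + 1 ≤ (m : ℤ) :=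
    ⟨(c + Divisor.degree E + 1).toNat, Int.self_le_toNat _⟩
  obtain ⟨D₁, hD₁⟩ : ∃ D₁ : Divisor K F, D₁ = Finsupp.single P (m : ℤ) - E := ⟨_, rfl⟩
  obtain ⟨D₂, hD₂⟩ : ∃ D₂ : Divisor K F, D₂ = D₁ - Finsupp.single Q 1 := ⟨_, rfl⟩
  have hdeg1 : Divisor.degree D₁ = m - Divisor.degree E := by
    rw [hD₁, map_sub, Divisor.degree_single, h.deg_one P, Nat.cast_one, mul_one]
  have hdeg2 : Divisor.degree D₂ = m - Divisor.degree E - 1 := by
    rw [hD₂, map_sub, Divisor.degree_single, h.deg_one Q, Nat.cast_one, mul_one, hdeg1]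
  have r1 := (h.riemann D₁).2
  have r2 := (h.riemann D₂).2
  rw [hc D₁ (by omega)] at r1
  rw [hc D₂ (by omega)] at r2
  have hle21 : D₂ ≤ D₁ := by
    rw [Finsupp.le_def]
    intro v
    rw [hD₂, Finsupp.sub_apply]
    have : (0 : ℤ) ≤ (Finsupp.single Q (1 : ℤ)) v := by
      by_cases hv : v = Q
      · subst hv; rw [Finsupp.single_eq_same]; exact zero_le_one
      · rw [Finsupp.single_eq_of_ne hv]
    omega
  have hle : riemannRochSpace D₂ ≤ riemannRochSpace D₁ := Fermat.Agent.H58.rr_space_mono hle21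
  have hne : ¬ riemannRochSpace D₁ ≤ riemannRochSpace D₂ := by
    intro hle'
    have heq := le_antisymm hle' hle
    rw [heq] at r1
    omega
  obtain ⟨f, hf1, hf2⟩ := SetLike.not_le_iff_exists.mp hne
  have hf0 : f ≠ 0 := fun h0 => hf2 (h0 ▸ Submodule.zero_mem _)
  rw [mem_riemannRochSpace_iff] at hf1 hf2
  have hf1' : ∀ v : Place K F, -D₁ v ≤ v.ord f := fun v => (hf1 v).resolve_left hf0
  have hD₁v : ∀ v : Place K F, v ≠ P → D₁ v = -E v := by
    intro v hv
    rw [hD₁, Finsupp.sub_apply, Finsupp.single_eq_of_ne hv, zero_sub]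
  refine ⟨f, hf0, fun v hv => ?_, ?_⟩
  · have := hf1' v
    rw [hD₁v v hv] at this
    omega
  · push Not at hf2
    obtain ⟨v, -, hv⟩ := hf2
    have hvQ : v = Q := by
      by_contra hvQ
      have h1 := hf1' v
      rw [hD₂, Finsupp.sub_apply, Finsupp.single_eq_of_ne hvQ, sub_zero] at hv
      omega
    subst hvQ
    have h1 := hf1' v
    rw [hD₂, Finsupp.sub_apply, Finsupp.single_eq_same] at hv
    rw [hD₁v v hQ] at hv h1
    omega

/-- The space of functions with prescribed minimal orders outside `P`. -/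
def ordSubmodule (P : Place K F) (B : Place K F → ℤ) : Submodule K F where
  carrier := {v | v = 0 ∨ ∀ Q : Place K F, Q ≠ P → B Q ≤ Q.ord v}
  zero_mem' := Or.inl rfl
  add_mem' := by
    intro a b ha hb
    by_cases hab : a + b = 0
    · exact Or.inl hab
    right
    intro Q hQ
    refine Fermat.Agent.H23.ord_add_ge Q hab _ ?_ ?_
    · rcases ha with ha | ha
      · exact Or.inl ha
      · exact Or.inr (ha Q hQ)
    · rcases hb with hb | hb
      · exact Or.inl hb
      · exact Or.inr (hb Q hQ)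
  smul_mem' := by
    intro c a ha
    by_cases hc : c = 0
    · left; rw [hc, zero_smul]
    rcases ha with ha | ha
    · left; rw [ha, smul_zero]
    by_cases ha0 : a = 0
    · left; rw [ha0, smul_zero]
    right
    intro Q hQ
    rw [Algebra.smul_def, Q.ord_mul ((map_ne_zero _).mpr hc) ha0,
      Fermat.Agent.H23.ord_algebraMap Q c, zero_add]
    exact ha Q hQ

theorem mem_ordSubmodule {P : Place K F} {B : Place K F → ℤ} {v : F} :
    v ∈ ordSubmodule P B ↔ v = 0 ∨ ∀ Q : Place K F, Q ≠ P → B Q ≤ Q.ord v := Iff.rfl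

end Generic

section Concrete

variable (F₀ : IntermediateField ℚ (LaurentSeries ℚ)) (t : ↥F₀)

/-- The algebra structure `RatRing F₀ t → ℚ̄ · F₀`. -/
@[reducible] def ratBarAlgebra : Algebra (RatRing F₀ t) (FBar F₀) :=
  ((toBar F₀).comp (algebraMap (RatRing F₀ t) ↥F₀)).toAlgebra

variable {F₀ t} {P : Place QQbar (FBar F₀)}

/-- Riemann's theorem for `ℚ̄ · F₀`. -/
theorem rrHyp_of_tData (hT : TData F₀ t P) : Fermat.Agent.H58.RRHyp QQbar (FBar F₀) :=
  Fermat.Agent.H58.rrHyp_charZero QQbar (FBar F₀) (toBar F₀ t) hT.trans_bar hT.fin_bar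

/-- Elements of `F₀` which are regular outside `P` are integral over `ℚ[t]`. -/
theorem isIntegral_of_regular (hT : TData F₀ t P) {f : ↥F₀}
    (hf : ∀ Q : Place QQbar (FBar F₀), Q ≠ P → 0 ≤ Q.ord (toBar F₀ f)) :
    IsIntegral (Algebra.adjoin ℚ ({t} : Set ↥F₀)) f := by
  refine isIntegral_of_toBar F₀ t ?_
  have hfin := hT.fin_bar
  refine (Fermat.Agent.H68.pd_isIntegral_iff (K := QQbar) (toBar F₀ t) hfin
    (Fermat.Agent.H84.isSeparable_of_charZero (K := QQbar) (toBar F₀ t) hfin) _).mpr ?_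
  intro v hv
  refine hf v ?_
  rintro rfl
  have := hT.pole
  omega

/-- Elements of `RatRing` are regular outside `P`. -/
theorem regular_of_tData (hT : TData F₀ t P) (Q : Place QQbar (FBar F₀)) (hQ : Q ≠ P)
    (f : RatRing F₀ t) : 0 ≤ Q.ord (toBar F₀ (f : ↥F₀)) := by
  have h1 : IsIntegral (Algebra.adjoin ℚ ({t} : Set ↥F₀)) (f : ↥F₀) := f.2
  have h2 := isIntegral_toBar F₀ t h1
  have hfin := hT.fin_bar
  exact (Fermat.Agent.H68.pd_isIntegral_iff (K := QQbar) (toBar F₀ t) hfin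
    (Fermat.Agent.H84.isSeparable_of_charZero (K := QQbar) (toBar F₀ t) hfin) _).mp h2 Q
    (hT.reg Q hQ)

/-- The basic hypotheses of the dictionary. -/
theorem dictHyp_of_tData (hT : TData F₀ t P) :
    @DictHyp QQbar (FBar F₀) _ _ _ (RatRing F₀ t) _ (ratBarAlgebra F₀ t) P := by
  letI := ratBarAlgebra F₀ t
  have hRR := rrHyp_of_tData hT
  refine ⟨?_, hRR.principal, hRR.deg_one, fun Q hQ f => regular_of_tData hT Q hQ f, ?_⟩
  · intro a b hab
    exact Subtype.ext (toBar_injective F₀ hab)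
  · intro a b ha hb hle
    have hb0 : (b : ↥F₀) ≠ 0 := fun h0 => hb (Subtype.ext h0)
    have ha0 : (a : ↥F₀) ≠ 0 := fun h0 => ha (Subtype.ext h0)
    have hbb : toBar F₀ (b : ↥F₀) ≠ 0 := (map_ne_zero _).mpr hb0
    have hab : toBar F₀ (a : ↥F₀) ≠ 0 := (map_ne_zero _).mpr ha0
    have hc : IsIntegral (Algebra.adjoin ℚ ({t} : Set ↥F₀)) ((a : ↥F₀) / (b : ↥F₀)) := by
      refine isIntegral_of_regular hT fun Q hQ => ?_
      rw [map_div₀, div_eq_mul_inv, Q.ord_mul hab (inv_ne_zero hbb), Q.ord_inv]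
      have := hle Q hQ
      have e1 : (algebraMap (RatRing F₀ t) (FBar F₀)) a = toBar F₀ (a : ↥F₀) := rfl
      have e2 : (algebraMap (RatRing F₀ t) (FBar F₀)) b = toBar F₀ (b : ↥F₀) := rfl
      rw [e1, e2] at this
      omega
    refine ⟨⟨(a : ↥F₀) / (b : ↥F₀), hc⟩, Subtype.ext ?_⟩
    show (a : ↥F₀) = (b : ↥F₀) * ((a : ↥F₀) / (b : ↥F₀))
    field_simp

/-- Rational elements are Galois-fixed. -/
theorem smul_toBar (σ : GalQ) (f : ↥F₀) : arithmeticGalois F₀ σ • toBar F₀ f = toBar F₀ f := by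
  apply Subtype.ext
  rw [coe_arithmeticGalois_smul, coe_toBar, coeffMap_coeffEmb]

/-- The place of `q`-order is Galois-fixed. -/
theorem smul_place_of_tData (hT : TData F₀ t P) (σ : GalQ) : arithmeticGalois F₀ σ • P = P := by
  refine arithmeticGalois_smul_qPlace F₀ P (fun f => ?_) σ
  by_cases hf : f = 0
  · rw [hf, Place.ord_zero]
    exact HahnSeries.order_zero.symm
  · exact hT.isInf f hf

/-- Invariant principal divisors have generators in `Frac (RatRing)`. -/
theorem descent_of_tData (hF : FixedStatement) (hT : TData F₀ t P)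
    (D : Divisor QQbar (FBar F₀)) (hD : D.IsPrincipal)
    (hinv : ∀ σ : GalQ, arithmeticGalois F₀ σ • D = D) :
    ∃ a b : RatRing F₀ t, a ≠ 0 ∧ b ≠ 0 ∧ ∀ v : Place QQbar (FBar F₀),
      D v + v.ord (toBar F₀ (b : ↥F₀)) = v.ord (toBar F₀ (a : ↥F₀)) := by
  obtain ⟨f, hf0, hDf, hfix⟩ := exists_fixed_generator F₀ (rrHyp_of_tData hT) D hD
  obtain ⟨f₀, hf₀⟩ := hF F₀ f (fun σ => hfix σ (hinv σ))
  haveI := Fermat.Agent.H84.isFractionRing_closure (K := ℚ) t hT.fin_rat
  obtain ⟨a, b, hb, hab⟩ := IsFractionRing.div_surjective (RatRing F₀ t) f₀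
  have hb0 : b ≠ 0 := nonZeroDivisors.ne_zero hb
  have hb0' : (b : ↥F₀) ≠ 0 := fun h0 => hb0 (Subtype.ext h0)
  have hf₀0 : f₀ ≠ 0 := by
    rintro rfl
    rw [map_zero] at hf₀
    exact hf0 hf₀.symm
  have ha0' : (a : ↥F₀) ≠ 0 := by
    intro h0
    apply hf₀0
    rw [← hab]
    show (a : ↥F₀) / (b : ↥F₀) = 0
    rw [h0, zero_div]
  have ha0 : a ≠ 0 := fun h0 => ha0' (by rw [h0]; rfl)
  refine ⟨a, b, ha0, hb0, fun v => ?_⟩
  have e1 : f = toBar F₀ (a : ↥F₀) / toBar F₀ (b : ↥F₀) := by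
    rw [← hf₀, ← hab, map_div₀]
    rfl
  rw [hDf v, e1, div_eq_mul_inv, v.ord_mul ((map_ne_zero _).mpr ha0')
    (inv_ne_zero ((map_ne_zero _).mpr hb0')), v.ord_inv]
  ring

/-- Invariant classes have invariant effective representatives. -/
theorem rep_of_tData (hT : TData F₀ t P) (x : Pic0 QQbar (FBar F₀))
    (hx : ∀ σ : GalQ, arithmeticGalois F₀ σ • x = x) :
    ∃ (E : Divisor QQbar (FBar F₀)) (D : Divisor.degZero (K := QQbar) (F := FBar F₀)),
      0 ≤ E ∧ E P = 0 ∧ (∀ σ : GalQ, arithmeticGalois F₀ σ • E = E) ∧ Pic0.mk D = x ∧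
      (D : Divisor QQbar (FBar F₀)) = E - Finsupp.single P (Divisor.degree E) := by
  have hRR := rrHyp_of_tData hT
  obtain ⟨n, E, hE, hEP, hrep, -, -, hinv⟩ := exists_invariant_effective hRR P x
  have hdeg := hrep.degree_eq hRR.deg_one
  obtain ⟨D, hDx, hED⟩ := hrep
  refine ⟨E, D, hE, hEP, fun σ => hinv _ (smul_place_of_tData hT σ) (hx σ), hDx, ?_⟩
  rw [hdeg, hED, add_sub_cancel_right]

/-- Invariant effective divisors are cut out by elements of `RatRing`. -/
theorem gen_of_tData (hDs : DescentStatement) (hT : TData F₀ t P)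
    (E : Divisor QQbar (FBar F₀)) (hE : 0 ≤ E)
    (hinv : ∀ σ : GalQ, arithmeticGalois F₀ σ • E = E)
    (Q : Place QQbar (FBar F₀)) (hQ : Q ≠ P) :
    ∃ f : RatRing F₀ t, f ≠ 0 ∧
      (∀ Q' : Place QQbar (FBar F₀), Q' ≠ P → E Q' ≤ Q'.ord (toBar F₀ (f : ↥F₀))) ∧
      Q.ord (toBar F₀ (f : ↥F₀)) = E Q := by
  classical
  have hRR := rrHyp_of_tData hT
  obtain ⟨h, hh0, hhE, hhQ⟩ := exists_exact_order hRR P E Q hQ
  -- the Galois-stable space
  have hV : ∀ (σ : GalQ) (v : FBar F₀), v ∈ ordSubmodule P (fun Q' => E Q') →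
      arithmeticGalois F₀ σ • v ∈ ordSubmodule P (fun Q' => E Q') := by
    intro σ v hv
    rcases hv with hv | hv
    · left; rw [hv, smul_zero]
    right
    intro Q' hQ'
    have h1 := SemilinearAut.ord_smul (arithmeticGalois F₀ σ)
      ((arithmeticGalois F₀ σ)⁻¹ • Q') v
    rw [smul_inv_smul] at h1
    rw [h1]
    have h2 : (arithmeticGalois F₀ σ)⁻¹ • Q' ≠ P := by
      intro hc
      apply hQ'
      have h3 := congrArg (fun R => arithmeticGalois F₀ σ • R) hc
      simp only [smul_inv_smul] at h3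
      rw [h3, smul_place_of_tData hT σ]
    have h4 : E ((arithmeticGalois F₀ σ)⁻¹ • Q') ≤ ((arithmeticGalois F₀ σ)⁻¹ • Q').ord v :=
      hv _ h2
    have h5 : E ((arithmeticGalois F₀ σ)⁻¹ • Q') = E Q' := by
      conv_rhs => rw [← hinv σ]
      rw [SemilinearAut.divisor_smul_apply]
    rw [h5] at h4
    exact h4
  have hhV : h ∈ ordSubmodule P (fun Q' => E Q') := Or.inr hhE
  have hspan := hDs F₀ _ hV h hhV
  -- some rational element has exact order at `Q`
  by_contra hcon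
  push Not at hcon
  have hsub : {w : FBar F₀ | w ∈ ordSubmodule P (fun Q' => E Q') ∧ ∃ f : ↥F₀, toBar F₀ f = w}
      ⊆ (ordSubmodule P (fun Q' => if Q' = Q then E Q + 1 else E Q') : Set (FBar F₀)) := by
    rintro w ⟨hw, f, rfl⟩
    by_cases hw0 : toBar F₀ f = 0
    · exact Or.inl hw0
    have hw' := hw.resolve_left hw0
    have hf0 : f ≠ 0 := fun h0 => hw0 (by rw [h0, map_zero])
    have hint : IsIntegral (Algebra.adjoin ℚ ({t} : Set ↥F₀)) f :=
      isIntegral_of_regular hT fun Q' hQ' => le_trans (hE Q') (hw' Q' hQ')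
    have hne := hcon ⟨f, hint⟩ (fun h0 => hf0 (congrArg Subtype.val h0)) hw'
    right
    intro Q' hQ'
    show (if Q' = Q then E Q + 1 else E Q') ≤ Q'.ord (toBar F₀ f)
    by_cases hQQ : Q' = Q
    · rw [if_pos hQQ, hQQ]
      have hge : E Q ≤ Q.ord (toBar F₀ f) := hw' Q hQ
      have hne' : Q.ord (toBar F₀ f) ≠ E Q := hne
      omega
    · rw [if_neg hQQ]
      exact hw' Q' hQ'
  have h1 := (Submodule.span_le.mpr hsub) hspan
  have h2 : (if Q = Q then E Q + 1 else E Q) ≤ Q.ord h := (h1.resolve_left hh0) Q hQ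
  rw [if_pos rfl] at h2
  omega

/-- The Galois hypotheses of the dictionary. -/
theorem dictGalHyp_of_tData (hF : FixedStatement) (hDs : DescentStatement)
    (hT : TData F₀ t P) :
    @DictGalHyp QQbar (FBar F₀) _ _ _ GalQ _ (arithmeticGalois F₀) (RatRing F₀ t) _
      (ratBarAlgebra F₀ t) P := by
  letI := ratBarAlgebra F₀ t
  exact
    { toDictHyp := dictHyp_of_tData hT
      fixed := fun σ f => smul_toBar σ (f : ↥F₀)
      fixed_inf := fun σ => smul_place_of_tData hT σ
      descent := fun D hD hinv => descent_of_tData hF hT D hD hinv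
      rep := fun x hx => rep_of_tData hT x hx
      gen := fun E hE _ hinv Q hQ => gen_of_tData hDs hT E hE hinv Q hQ }

/-- **The dictionary** `Cl(RatRing F₀ t) ≃ Pic⁰(ℚ̄ · F₀)^{G_ℚ}`. -/
theorem dictEquiv (hF : FixedStatement) (hDs : DescentStatement)
    (F₀ : IntermediateField ℚ (LaurentSeries ℚ)) (t : ↥F₀) (P : Place QQbar (FBar F₀))
    (hT : TData F₀ t P) [IsDedekindDomain (RatRing F₀ t)] :
    Nonempty (Additive (ClassGroup (RatRing F₀ t)) ≃+ ↥(JFix F₀)) := by
  letI := ratBarAlgebra F₀ t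
  exact (dictGalHyp_of_tData hF hDs hT).nonempty_equiv (fun _ _ => rfl)

end Concrete

end Fermat.Agent.H53

end
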