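/-
helper53 (P-MW block E, row 881 MW-E-DICT): THE DICTIONARY in helper39's interface,
`Cl(ratHolo P₀) ≃ Pic⁰(ℚ̄ · F₀)^{G_ℚ}`, from the abstract dictionary
`Fermat.Agent.H53.DictGalHyp.nonempty_equiv`.
-/
import Fermat.Agent.H39.MW.ModStatements
import Fermat.Agent.H53.MWE.Dict
import Fermat.Agent.H58.RR.NonSpecial

set_option autoImplicit false
set_option linter.style.haveILetI false
set_option linter.unusedSectionVars false

noncomputable section

open ModularCurve AlgebraicCurve IntermediateField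
open scoped nonZeroDivisors

namespace Fermat.Agent.H53

open Fermat.Agent.H92.MW (QQbar)
open Fermat.Agent.H39.MW

section GenericRR

variable {K F : Type*} [Field K] [Field F] [Algebra K F]

/-- **Riemann-Roch**: for `m` large, `L(m P - E - Q)` is strictly smaller than `L(m P - E)`. -/
theorem exists_rr_strict (h : Fermat.Agent.H58.RRHyp K F) (P : Place K F) (E : Divisor K F)
    (Q : Place K F) :
    ∃ m : ℕ, ¬ riemannRochSpace (Finsupp.single P (m : ℤ) - E)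
      ≤ riemannRochSpace (Finsupp.single P (m : ℤ) - E - Finsupp.single Q 1) := by
  classical
  obtain ⟨c, hc⟩ := h.exists_degree_bound
  obtain ⟨m, hm⟩ : ∃ m : ℕ, c + Divisor.degree E + 1 ≤ (m : ℤ) :=
    ⟨(c + Divisor.degree E + 1).toNat, Int.self_le_toNat _⟩
  refine ⟨m, ?_⟩
  obtain ⟨D₁, hD₁⟩ : ∃ D₁ : Divisor K F, D₁ = Finsupp.single P (m : ℤ) - E := ⟨_, rfl⟩
  obtain ⟨D₂, hD₂⟩ : ∃ D₂ : Divisor K F, D₂ = D₁ - Finsupp.single Q 1 := ⟨_, rfl⟩
  rw [← hD₁, ← hD₂]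
  have hdeg1 : Divisor.degree D₁ = m - Divisor.degree E := by
    rw [hD₁, map_sub, Divisor.degree_single, h.deg_one P, Nat.cast_one, mul_one]
  have hdeg2 : Divisor.degree D₂ = m - Divisor.degree E - 1 := by
    rw [hD₂, map_sub, Divisor.degree_single, h.deg_one Q, Nat.cast_one, mul_one, hdeg1]
  have r1 := (h.riemann D₁).2
  have r2 := (h.riemann D₂).2
  rw [hc D₁ (by omega)] at r1
  rw [hc D₂ (by omega)] at r2
  have hle21 : D₂ ≤ D₁ := by
    rw [Finsupp.le_def]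
    intro v
    rw [hD₂, Finsupp.sub_apply]
    have : (0 : ℤ) ≤ (Finsupp.single Q (1 : ℤ)) v := by
      by_cases hv : v = Q
      · subst hv; rw [Finsupp.single_eq_same]; exact zero_le_one
      · rw [Finsupp.single_eq_of_ne hv]
    omega
  have hle : riemannRochSpace D₂ ≤ riemannRochSpace D₁ := Fermat.Agent.H58.rr_space_mono hle21
  intro hle'
  have heq := le_antisymm hle' hle
  rw [heq] at r1
  omega

/-- The Riemann-Roch space of an invariant divisor is stable. -/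
theorem smul_mem_riemannRochSpace (g : SemilinearAut K F) {D : Divisor K F} (hD : g • D = D)
    {f : F} (hf : f ∈ riemannRochSpace D) : g • f ∈ riemannRochSpace D := by
  rw [mem_riemannRochSpace_iff] at hf ⊢
  intro v
  by_cases hf0 : f = 0
  · left; rw [hf0, smul_zero]
  right
  have h1 := SemilinearAut.ord_smul g (g⁻¹ • v) f
  rw [smul_inv_smul] at h1
  rw [h1]
  have h2 := (hf (g⁻¹ • v)).resolve_left hf0
  have h3 : D (g⁻¹ • v) = D v := by
    conv_rhs => rw [← hD]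
    rw [SemilinearAut.divisor_smul_apply]
  rw [h3] at h2
  exact h2

end GenericRR

section Cusp

variable {F₀ : IntermediateField ℚ (LaurentSeries ℚ)} {P₀ : Place QQbar (FB F₀)}

/-- The algebra structure `ratHolo P₀ → ℚ̄ · F₀`. -/
@[reducible] def ratHoloAlgebra (P₀ : Place QQbar (FB F₀)) : Algebra ↥(ratHolo P₀) (FB F₀) :=
  ((emb F₀).comp (algebraMap ↥(ratHolo P₀) ↥F₀)).toAlgebra

theorem emb_injective' : Function.Injective (emb F₀) := (emb F₀).injective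

/-- Rational elements are Galois-fixed. -/
theorem smul_emb (σ : QQbar ≃ₐ[ℚ] QQbar) (f : ↥F₀) :
    arithmeticGalois F₀ σ • emb F₀ f = emb F₀ f := by
  apply Subtype.ext
  rw [coe_arithmeticGalois_smul, coe_emb, coeffMap_coeffEmb]

/-- The cusp is Galois-fixed. -/
theorem smul_cusp (hS : CuspSetting F₀ P₀) (σ : QQbar ≃ₐ[ℚ] QQbar) :
    arithmeticGalois F₀ σ • P₀ = P₀ :=
  arithmeticGalois_smul_qPlace F₀ P₀ hS.cusp σ

theorem ord_nonneg_of_ratHolo (f : ↥(ratHolo P₀)) (v : Place QQbar (FB F₀)) (hv : v ≠ P₀) :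
    0 ≤ v.ord (emb F₀ (f : ↥F₀)) :=
  Fermat.Agent.H23.ord_nonneg_of_mem v (f.2 v hv)

theorem mem_ratHolo_of_ord {f : ↥F₀}
    (hf : ∀ v : Place QQbar (FB F₀), v ≠ P₀ → 0 ≤ v.ord (emb F₀ f)) : f ∈ ratHolo P₀ :=
  fun v hv => Fermat.Agent.H23.mem_of_ord_nonneg v (hf v hv)

/-- The basic hypotheses of the dictionary. -/
theorem dictHyp_of_cusp (hS : CuspSetting F₀ P₀) :
    @DictHyp QQbar (FB F₀) _ _ _ ↥(ratHolo P₀) _ (ratHoloAlgebra P₀) P₀ := by
  letI := ratHoloAlgebra P₀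
  refine ⟨?_, hS.rr.principal, hS.rr.deg_one, fun Q hQ f => ord_nonneg_of_ratHolo f Q hQ, ?_⟩
  · intro a b hab
    exact Subtype.ext (emb_injective' hab)
  · intro a b ha hb hle
    have hb0 : (b : ↥F₀) ≠ 0 := fun h0 => hb (Subtype.ext h0)
    have ha0 : (a : ↥F₀) ≠ 0 := fun h0 => ha (Subtype.ext h0)
    have hbb : emb F₀ (b : ↥F₀) ≠ 0 := (map_ne_zero _).mpr hb0
    have hab : emb F₀ (a : ↥F₀) ≠ 0 := (map_ne_zero _).mpr ha0
    have hc : (a : ↥F₀) / (b : ↥F₀) ∈ ratHolo P₀ := by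
      refine mem_ratHolo_of_ord fun Q hQ => ?_
      rw [map_div₀, div_eq_mul_inv, Q.ord_mul hab (inv_ne_zero hbb), Q.ord_inv]
      have := hle Q hQ
      have e1 : (algebraMap ↥(ratHolo P₀) (FB F₀)) a = emb F₀ (a : ↥F₀) := rfl
      have e2 : (algebraMap ↥(ratHolo P₀) (FB F₀)) b = emb F₀ (b : ↥F₀) := rfl
      rw [e1, e2] at this
      omega
    refine ⟨⟨(a : ↥F₀) / (b : ↥F₀), hc⟩, Subtype.ext ?_⟩
    show (a : ↥F₀) = (b : ↥F₀) * ((a : ↥F₀) / (b : ↥F₀))
    field_simp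

/-- Invariant effective divisors are cut out by elements of `ratHolo`. -/
theorem gen_of_cusp (hfix : FixedStatement) (hdesc : DescentStatement)
    (hS : CuspSetting F₀ P₀) (E : Divisor QQbar (FB F₀)) (hE : 0 ≤ E)
    (hinv : ∀ σ : QQbar ≃ₐ[ℚ] QQbar, arithmeticGalois F₀ σ • E = E)
    (Q : Place QQbar (FB F₀)) (hQ : Q ≠ P₀) :
    ∃ f : ↥(ratHolo P₀), f ≠ 0 ∧
      (∀ Q' : Place QQbar (FB F₀), Q' ≠ P₀ → E Q' ≤ Q'.ord (emb F₀ (f : ↥F₀))) ∧
      Q.ord (emb F₀ (f : ↥F₀)) = E Q := by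
  classical
  obtain ⟨m, hm⟩ := exists_rr_strict hS.rr P₀ E Q
  obtain ⟨D₁, hD₁⟩ : ∃ D₁ : Divisor QQbar (FB F₀), D₁ = Finsupp.single P₀ (m : ℤ) - E :=
    ⟨_, rfl⟩
  rw [← hD₁] at hm
  have hD₁inv : ∀ σ : QQbar ≃ₐ[ℚ] QQbar, arithmeticGalois F₀ σ • D₁ = D₁ := by
    intro σ
    rw [hD₁, smul_sub, SemilinearAut.smul_single, smul_cusp hS σ, hinv σ]
  haveI hfin : Module.Finite QQbar ↥(riemannRochSpace D₁) := hS.rr.finite_space D₁
  have hspan := hdesc F₀ (riemannRochSpace D₁) hfin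
    (fun σ f hf => smul_mem_riemannRochSpace _ (hD₁inv σ) hf)
  -- a fixed element outside the smaller space
  obtain ⟨w, hwV, hwfix, hw2⟩ : ∃ w : FB F₀, w ∈ riemannRochSpace D₁ ∧
      (∀ σ : QQbar ≃ₐ[ℚ] QQbar, arithmeticGalois F₀ σ • w = w) ∧
      w ∉ riemannRochSpace (D₁ - Finsupp.single Q 1) := by
    by_contra hcon
    push Not at hcon
    apply hm
    rw [hspan]
    refine Submodule.span_le.mpr ?_
    rintro w ⟨hw, hwfix⟩
    exact hcon w hw hwfix
  obtain ⟨f₀, hf₀⟩ := hfix F₀ w hwfix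
  have hw0 : w ≠ 0 := fun h0 => hw2 (h0 ▸ Submodule.zero_mem _)
  rw [mem_riemannRochSpace_iff] at hwV hw2
  have hw1 : ∀ v : Place QQbar (FB F₀), -D₁ v ≤ v.ord w := fun v => (hwV v).resolve_left hw0
  have hD₁v : ∀ v : Place QQbar (FB F₀), v ≠ P₀ → D₁ v = -E v := by
    intro v hv
    rw [hD₁, Finsupp.sub_apply, Finsupp.single_eq_of_ne hv, zero_sub]
  have hge : ∀ v : Place QQbar (FB F₀), v ≠ P₀ → E v ≤ v.ord (emb F₀ f₀) := by
    intro v hv
    have := hw1 v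
    rw [hD₁v v hv] at this
    rw [hf₀]
    omega
  have hmem : f₀ ∈ ratHolo P₀ := mem_ratHolo_of_ord fun v hv => le_trans (hE v) (hge v hv)
  refine ⟨⟨f₀, hmem⟩, ?_, hge, ?_⟩
  · intro h0
    apply hw0
    rw [← hf₀]
    have : f₀ = 0 := congrArg Subtype.val h0
    rw [this, map_zero]
  · show Q.ord (emb F₀ f₀) = E Q
    rw [hf₀]
    push Not at hw2
    obtain ⟨v, -, hv⟩ := hw2
    have hvQ : v = Q := by
      by_contra hvQ
      have h1 := hw1 v
      rw [Finsupp.sub_apply, Finsupp.single_eq_of_ne hvQ, sub_zero] at hv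
      omega
    subst hvQ
    have h1 := hw1 v
    rw [Finsupp.sub_apply, Finsupp.single_eq_same] at hv
    rw [hD₁v v hQ] at hv h1
    omega

/-- Every Galois-fixed function is a quotient of two elements of `ratHolo`. -/
theorem exists_denominator (hfix : FixedStatement) (hdesc : DescentStatement)
    (hS : CuspSetting F₀ P₀) (f₀ : ↥F₀) (hf₀ : f₀ ≠ 0) :
    ∃ b : ↥(ratHolo P₀), b ≠ 0 ∧ (b : ↥F₀) * f₀ ∈ ratHolo P₀ := by
  classical
  by_cases hex : ∃ Q : Place QQbar (FB F₀), Q ≠ P₀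
  swap
  · push Not at hex
    refine ⟨1, one_ne_zero, fun v hv => absurd (hex v) hv⟩
  obtain ⟨Q, hQ⟩ := hex
  have hP := hS.rr.principal
  have hef : emb F₀ f₀ ≠ 0 := (map_ne_zero _).mpr hf₀
  obtain ⟨D, hD, -⟩ := HasPrincipalDivisors.exists_divisor (K := QQbar) (emb F₀ f₀) hef
  -- the polar divisor outside the cusp
  obtain ⟨E, hEdef⟩ : ∃ E : Divisor QQbar (FB F₀),
      E = (D.mapRange (fun n : ℤ => max 0 (-n)) (by simp)).erase P₀ := ⟨_, rfl⟩
  have hEv : ∀ v : Place QQbar (FB F₀), v ≠ P₀ → E v = max 0 (-(v.ord (emb F₀ f₀))) := by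
    intro v hv
    rw [hEdef, Finsupp.erase_ne hv, Finsupp.mapRange_apply, hD v]
  have hEP : E P₀ = 0 := by rw [hEdef, Finsupp.erase_same]
  have hE0 : 0 ≤ E := by
    intro v
    by_cases hv : v = P₀
    · subst hv; rw [hEP]; rfl
    · rw [hEv v hv]; exact le_max_left _ _
  have hEinv : ∀ σ : QQbar ≃ₐ[ℚ] QQbar, arithmeticGalois F₀ σ • E = E := by
    intro σ
    ext w
    rw [SemilinearAut.divisor_smul_apply]
    by_cases hw : w = P₀
    · subst hw
      have h1 : (arithmeticGalois F₀ σ)⁻¹ • w = w := by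
        rw [inv_smul_eq_iff, smul_cusp hS σ]
      rw [h1]
    · have h2 : (arithmeticGalois F₀ σ)⁻¹ • w ≠ P₀ := by
        intro hc
        apply hw
        rw [inv_smul_eq_iff, smul_cusp hS σ] at hc
        exact hc
      rw [hEv _ h2, hEv w hw]
      have h3 := SemilinearAut.ord_smul (arithmeticGalois F₀ σ)
        ((arithmeticGalois F₀ σ)⁻¹ • w) (emb F₀ f₀)
      rw [smul_inv_smul, smul_emb] at h3
      rw [h3]
  obtain ⟨b, hb0, hbE, -⟩ := gen_of_cusp hfix hdesc hS E hE0 hEinv Q hQ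
  refine ⟨b, hb0, mem_ratHolo_of_ord fun v hv => ?_⟩
  have hb0' : (b : ↥F₀) ≠ 0 := fun h0 => hb0 (Subtype.ext h0)
  rw [map_mul, v.ord_mul ((map_ne_zero _).mpr hb0') hef]
  have h1 := hbE v hv
  rw [hEv v hv] at h1
  have h2 := le_max_right 0 (-(v.ord (emb F₀ f₀)))
  omega

/-- Invariant principal divisors have generators in `Frac (ratHolo)`. -/
theorem descent_of_cusp (hfix : FixedStatement) (hdesc : DescentStatement)
    (hS : CuspSetting F₀ P₀) (D : Divisor QQbar (FB F₀)) (hD : D.IsPrincipal)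
    (hinv : ∀ σ : QQbar ≃ₐ[ℚ] QQbar, arithmeticGalois F₀ σ • D = D) :
    ∃ a b : ↥(ratHolo P₀), a ≠ 0 ∧ b ≠ 0 ∧ ∀ v : Place QQbar (FB F₀),
      D v + v.ord (emb F₀ (b : ↥F₀)) = v.ord (emb F₀ (a : ↥F₀)) := by
  obtain ⟨f, hf0, hDf, hfixf⟩ := exists_fixed_generator F₀ hS.rr D hD
  obtain ⟨f₀, hf₀⟩ := hfix F₀ f (fun σ => hfixf σ (hinv σ))
  have hf₀0 : f₀ ≠ 0 := by
    rintro rfl
    rw [map_zero] at hf₀
    exact hf0 hf₀.symm
  obtain ⟨b, hb0, hbf⟩ := exists_denominator hfix hdesc hS f₀ hf₀0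
  have hb0' : (b : ↥F₀) ≠ 0 := fun h0 => hb0 (Subtype.ext h0)
  refine ⟨⟨(b : ↥F₀) * f₀, hbf⟩, b, ?_, hb0, fun v => ?_⟩
  · intro h0
    have : (b : ↥F₀) * f₀ = 0 := congrArg Subtype.val h0
    exact mul_ne_zero hb0' hf₀0 this
  · show D v + v.ord (emb F₀ (b : ↥F₀)) = v.ord (emb F₀ ((b : ↥F₀) * f₀))
    rw [map_mul, v.ord_mul ((map_ne_zero _).mpr hb0') ((map_ne_zero _).mpr hf₀0), hDf v, hf₀]
    ring

/-- Invariant classes have invariant effective representatives. -/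
theorem rep_of_cusp (hS : CuspSetting F₀ P₀) (x : Pic0 QQbar (FB F₀))
    (hx : ∀ σ : QQbar ≃ₐ[ℚ] QQbar, arithmeticGalois F₀ σ • x = x) :
    ∃ (E : Divisor QQbar (FB F₀)) (D : Divisor.degZero (K := QQbar) (F := FB F₀)),
      0 ≤ E ∧ E P₀ = 0 ∧ (∀ σ : QQbar ≃ₐ[ℚ] QQbar, arithmeticGalois F₀ σ • E = E) ∧
      Pic0.mk D = x ∧
      (D : Divisor QQbar (FB F₀)) = E - Finsupp.single P₀ (Divisor.degree E) := by
  obtain ⟨n, E, hE, hEP, hrep, -, -, hinv⟩ := exists_invariant_effective hS.rr P₀ x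
  have hdeg := hrep.degree_eq hS.rr.deg_one
  obtain ⟨D, hDx, hED⟩ := hrep
  refine ⟨E, D, hE, hEP, fun σ => hinv _ (smul_cusp hS σ) (hx σ), hDx, ?_⟩
  rw [hdeg, hED, add_sub_cancel_right]

/-- The Galois hypotheses of the dictionary. -/
theorem dictGalHyp_of_cusp (hfix : FixedStatement) (hdesc : DescentStatement)
    (hS : CuspSetting F₀ P₀) :
    @DictGalHyp QQbar (FB F₀) _ _ _ (QQbar ≃ₐ[ℚ] QQbar) _ (arithmeticGalois F₀) ↥(ratHolo P₀) _
      (ratHoloAlgebra P₀) P₀ := by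
  letI := ratHoloAlgebra P₀
  exact
    { toDictHyp := dictHyp_of_cusp hS
      fixed := fun σ f => smul_emb σ (f : ↥F₀)
      fixed_inf := fun σ => smul_cusp hS σ
      descent := fun D hD hinv => descent_of_cusp hfix hdesc hS D hD hinv
      rep := fun x hx => rep_of_cusp hS x hx
      gen := fun E hE _ hinv Q hQ => gen_of_cusp hfix hdesc hS E hE hinv Q hQ }

/-- **MW-E-DICT** (row 881): the dictionary, from `RatDedekindStatement`, `FixedStatement` and
`DescentStatement`. -/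
theorem dictionaryStatement_of (hC : RatDedekindStatement) (hfix : FixedStatement)
    (hdesc : DescentStatement) : DictionaryStatement := by
  intro F₀ P₀ hS
  haveI : IsDedekindDomain ↥(ratHolo P₀) := (hC F₀ P₀ hS).1
  letI := ratHoloAlgebra P₀
  exact (dictGalHyp_of_cusp hfix hdesc hS).nonempty_equiv (fun _ _ => rfl)

end Cusp

end Fermat.Agent.H53

end
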