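/-
helper53 (P-MW block E, row 881 MW-E-DICT): THE DICTIONARY, unconditional.
-/
import Fermat.Agent.H53.MWE.DictCusp
import Fermat.Agent.H80.MW.Fixed
import Fermat.Agent.H27.MW.Descent
import Fermat.Agent.H2.MW.RatDedekindFinal

set_option autoImplicit false

namespace Fermat.Agent.H53

/-- **MW-E-DICT** (row 881): `Cl(ratHolo P₀) ≃ Pic⁰(ℚ̄ · F₀)^{G_ℚ}` for every cusp setting. -/
theorem dictionaryStatement : Fermat.Agent.H39.MW.DictionaryStatement :=
  dictionaryStatement_of (Fermat.Agent.H2.ratDedekind_of_fixed Fermat.Agent.H80.MW.fixed)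
    Fermat.Agent.H80.MW.fixed Fermat.Agent.H27.MW.descentStatement

end Fermat.Agent.H53
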